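import Fermat.Agent.S56.P3.Spec

/-!
# S56 / P3, piece IRR (helper666): `ad⁰ρ` is irreducible

`ad0Irreducible : Ad0IrreducibleStatement`.

Route: the trace form on `End V` (`dim V = 2`, `2 ≠ 0`) is non-degenerate, so a stable proper
nonzero subspace `W ⊂ ad⁰` gives a stable LINE `k·A` (either `W` or the orthogonal of
`W ⊕ k·1`).  By Cayley–Hamilton `A² = d`.  If `d = 0` then `ker A_K` is a stable line of `K ⊗ V`;
if `d ≠ 0` then the centraliser of `A` has index `≤ 2` and preserves `ker (A_K - λ)`, `λ² = d`.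
-/

set_option autoImplicit false
set_option linter.unusedSectionVars false

open Polynomial Module

namespace Fermat.Agent.S56.P3.H666

section Basic

variable {k : Type} [Field k] {V : Type} [AddCommGroup V] [Module k V] [Module.Finite k V]

/-- The trace form `(A, B) ↦ tr (A B)` on `End V`. -/
noncomputable def trForm (k : Type) [Field k] (V : Type) [AddCommGroup V] [Module k V]
    [Module.Finite k V] : LinearMap.BilinForm k (Module.End k V) :=
  (LinearMap.mul k (Module.End k V)).compr₂ (LinearMap.trace k V)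

theorem trForm_apply (A B : Module.End k V) :
    trForm k V A B = LinearMap.trace k V (A * B) := rfl

/-- The trace form is non-degenerate. -/
theorem trForm_ker : LinearMap.ker (trForm k V) = ⊥ := by
  rw [LinearMap.ker_eq_bot']
  intro A hA
  ext v
  rw [LinearMap.zero_apply, ← Module.forall_dual_apply_eq_zero_iff k]
  intro φ
  have h1 : trForm k V A (φ.smulRight v) = 0 := by rw [hA]; rfl
  rw [trForm_apply] at h1
  have h2 : A * φ.smulRight v = φ.smulRight (A v) := by
    ext x
    simp [LinearMap.smulRight_apply]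
  rw [h2, LinearMap.trace_smulRight] at h1
  exact h1

theorem finrank_end (h2 : finrank k V = 2) : finrank k (Module.End k V) = 4 := by
  rw [Module.finrank_linearMap, h2]

/-- Cayley–Hamilton in dimension two, trace zero. -/
theorem sq_eq_smul_one (h2 : finrank k V = 2) (A : Module.End k V)
    (hA : LinearMap.trace k V A = 0) : ∃ d : k, A * A = d • (1 : Module.End k V) := by
  let b := Module.finBasisOfFinrankEq k V h2
  refine ⟨-LinearMap.det A, ?_⟩
  apply (LinearMap.toMatrixAlgEquiv b).injective
  have htr : (LinearMap.toMatrixAlgEquiv b A).trace = 0 := by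
    rw [← hA, LinearMap.trace_eq_matrix_trace k b]
    rfl
  have hdet : LinearMap.det A = (LinearMap.toMatrixAlgEquiv b A).det := by
    rw [← LinearMap.det_toMatrix b]
    rfl
  rw [map_mul, map_smul, map_one, hdet]
  generalize LinearMap.toMatrixAlgEquiv b A = M at htr
  rw [Matrix.trace_fin_two] at htr
  have h11 : M 1 1 = -M 0 0 := by linear_combination htr
  ext i j
  fin_cases i <;> fin_cases j <;>
    simp [Matrix.mul_apply, Fin.sum_univ_two, Matrix.det_fin_two, h11] <;> ring

end Basic

section Line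

variable {k : Type} [Field k] {V : Type} [AddCommGroup V] [Module k V] [Module.Finite k V]
variable {Γ : Type} [Group Γ]

theorem two_ne_zero_of_char {p : ℕ} (hp : p.Prime) (hp2 : p ≠ 2) (hp0 : (p : k) = 0) :
    (2 : k) ≠ 0 := by
  intro h2
  rcases hp.eq_two_or_odd' with h | ⟨m, hm⟩
  · exact hp2 h
  · have : (p : k) = 1 := by
      rw [hm]
      push_cast
      rw [h2, zero_mul, zero_add]
    rw [hp0] at this
    exact zero_ne_one this

theorem rho_mul_inv (ρ : Γ →* Module.End k V) (g : Γ) : ρ g * ρ g⁻¹ = 1 := by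
  rw [← map_mul, mul_inv_cancel, map_one]

theorem rho_inv_mul (ρ : Γ →* Module.End k V) (g : Γ) : ρ g⁻¹ * ρ g = 1 := by
  rw [← map_mul, inv_mul_cancel, map_one]

/-- The centraliser of `A` in `Γ`. -/
def centr (ρ : Γ →* Module.End k V) (A : Module.End k V) : Subgroup Γ where
  carrier := {g | ρ g * A = A * ρ g}
  one_mem' := by
    show ρ 1 * A = A * ρ 1
    rw [map_one, one_mul, mul_one]
  mul_mem' := by
    intro a b ha hb
    show ρ (a * b) * A = A * ρ (a * b)
    have ha' : ρ a * A = A * ρ a := ha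
    have hb' : ρ b * A = A * ρ b := hb
    rw [map_mul, mul_assoc, hb', ← mul_assoc, ha', mul_assoc]
  inv_mem' := by
    intro a ha
    show ρ a⁻¹ * A = A * ρ a⁻¹
    have ha' : ρ a * A = A * ρ a := ha
    calc ρ a⁻¹ * A = ρ a⁻¹ * A * (ρ a * ρ a⁻¹) := by rw [rho_mul_inv, mul_one]
      _ = ρ a⁻¹ * (A * ρ a) * ρ a⁻¹ := by simp only [mul_assoc]
      _ = ρ a⁻¹ * (ρ a * A) * ρ a⁻¹ := by rw [ha']
      _ = (ρ a⁻¹ * ρ a) * A * ρ a⁻¹ := by simp only [mul_assoc]
      _ = A * ρ a⁻¹ := by rw [rho_inv_mul, one_mul]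

theorem mem_centr {ρ : Γ →* Module.End k V} {A : Module.End k V} {g : Γ} :
    g ∈ centr ρ A ↔ ρ g * A = A * ρ g := Iff.rfl

/-- The index of a subgroup whose complement is "multiplicatively closed into it". -/
theorem index_eq_two_of {G : Subgroup Γ} {g₀ : Γ} (hg₀ : g₀ ∉ G)
    (hmul : ∀ a b : Γ, a ∉ G → b ∉ G → a * b ∈ G) : G.index = 2 := by
  rw [Subgroup.index_eq_two_iff]
  refine ⟨g₀, fun b => ?_⟩
  by_cases hb : b ∈ G
  · right
    refine ⟨hb, fun hbg => hg₀ ?_⟩
    have : g₀ = b⁻¹ * (b * g₀) := by group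
    rw [this]
    exact G.mul_mem (G.inv_mem hb) hbg
  · left
    exact ⟨hmul b g₀ hb hg₀, hb⟩

/-- Nilpotent case: `A ≠ 0`, `A² = 0`, and every conjugate of `A` is a multiple of `A`. -/
theorem line_false_nil (ρ : Γ →* Module.End k V) (p : ℕ) (h : TWHyp ρ p)
    (A : Module.End k V) (hA0 : A ≠ 0) (hsq : A * A = 0)
    (hst : ∀ g : Γ, ∃ c : k, ρ g * A * ρ g⁻¹ = c • A) : False := by
  have hAK0 : A.baseChange (AlgebraicClosure k) ≠ 0 := by
    intro h0
    apply hA0
    apply LinearMap.baseChangeHom_injective k V (AlgebraicClosure k)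
    simpa using h0
  have hAKsq : A.baseChange (AlgebraicClosure k) * A.baseChange (AlgebraicClosure k) = 0 := by
    rw [← LinearMap.baseChange_mul, hsq, LinearMap.baseChange_zero]
  have hcomm : ∀ g : Γ, ∃ c : k, A * ρ g = c • (ρ g * A) := by
    intro g
    obtain ⟨c, hc⟩ := hst g⁻¹
    rw [inv_inv] at hc
    refine ⟨c, ?_⟩
    calc A * ρ g = (ρ g * ρ g⁻¹) * A * ρ g := by rw [rho_mul_inv, one_mul]
      _ = ρ g * (ρ g⁻¹ * A * ρ g) := by simp only [mul_assoc]
      _ = c • (ρ g * A) := by rw [hc, mul_smul_comm]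
  have hstab : ∀ g : Γ, ∀ x ∈ LinearMap.ker (A.baseChange (AlgebraicClosure k)),
      (ρ g).baseChange (AlgebraicClosure k) x ∈
        LinearMap.ker (A.baseChange (AlgebraicClosure k)) := by
    intro g x hx
    rw [LinearMap.mem_ker] at hx ⊢
    obtain ⟨c, hc⟩ := hcomm g
    have h1 : A.baseChange (AlgebraicClosure k) * (ρ g).baseChange (AlgebraicClosure k) =
        c • ((ρ g).baseChange (AlgebraicClosure k) * A.baseChange (AlgebraicClosure k)) := by
      rw [← LinearMap.baseChange_mul, hc, LinearMap.baseChange_smul, LinearMap.baseChange_mul]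
    have h2 := congrArg (fun f : Module.End (AlgebraicClosure k)
      (TensorProduct k (AlgebraicClosure k) V) => f x) h1
    simp only [Module.End.mul_apply, LinearMap.smul_apply, hx, map_zero, smul_zero] at h2
    exact h2
  rcases h.absIrr _ hstab with hb | ht
  · apply hAK0
    refine LinearMap.ext fun x => ?_
    have hx : A.baseChange (AlgebraicClosure k) x ∈
        LinearMap.ker (A.baseChange (AlgebraicClosure k)) := by
      rw [LinearMap.mem_ker]
      exact congrArg (fun f : Module.End (AlgebraicClosure k)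
        (TensorProduct k (AlgebraicClosure k) V) => f x) hAKsq
    rw [hb] at hx
    simpa using hx
  · exact hAK0 (LinearMap.ker_eq_top.mp ht)

/-- In the semisimple case the multiplier is `±1`. -/
theorem conj_cases (ρ : Γ →* Module.End k V) (hfin : finrank k V = 2) (h2 : (2 : k) ≠ 0)
    (A : Module.End k V) (d : k) (hd0 : d ≠ 0) (hsq : A * A = d • (1 : Module.End k V))
    (g : Γ) (c : k) (hc : ρ g * A * ρ g⁻¹ = c • A) :
    ρ g * A = A * ρ g ∨ ρ g * A = -(A * ρ g) := by
  have h1 : (ρ g * A * ρ g⁻¹) * (ρ g * A * ρ g⁻¹) = d • (1 : Module.End k V) := by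
    calc (ρ g * A * ρ g⁻¹) * (ρ g * A * ρ g⁻¹)
        = ρ g * A * (ρ g⁻¹ * ρ g) * A * ρ g⁻¹ := by simp only [mul_assoc]
      _ = ρ g * (A * A) * ρ g⁻¹ := by rw [rho_inv_mul, mul_one]; simp only [mul_assoc]
      _ = d • (1 : Module.End k V) := by
          rw [hsq, mul_smul_comm, mul_one, smul_mul_assoc, rho_mul_inv]
  rw [hc, smul_mul_smul_comm, hsq, smul_smul] at h1
  have h3 := congrArg (LinearMap.trace k V) h1
  rw [map_smul, map_smul, LinearMap.trace_one, hfin, smul_eq_mul, smul_eq_mul] at h3
  have h4 : ((2 : ℕ) : k) ≠ 0 := by exact_mod_cast h2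
  have h5 : c * c * d = d := mul_right_cancel₀ h4 h3
  have h6 : (c - 1) * (c + 1) = 0 := by
    have : (c * c - 1) * d = 0 := by linear_combination h5
    rcases mul_eq_zero.mp this with h | h
    · linear_combination h
    · exact absurd h hd0
  have hmul : ρ g * A = c • (A * ρ g) := by
    calc ρ g * A = ρ g * A * (ρ g⁻¹ * ρ g) := by rw [rho_inv_mul, mul_one]
      _ = (ρ g * A * ρ g⁻¹) * ρ g := by simp only [mul_assoc]
      _ = c • (A * ρ g) := by rw [hc, smul_mul_assoc]
  rcases mul_eq_zero.mp h6 with h | h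
  · left
    have hc1 : c = 1 := by linear_combination h
    rw [hmul, hc1, one_smul]
  · right
    have hc1 : c = -1 := by linear_combination h
    rw [hmul, hc1, neg_one_smul]

/-- Semisimple case: `A² = d ≠ 0`, `tr A = 0`, every conjugate of `A` is a multiple of `A`. -/
theorem line_false_ss (ρ : Γ →* Module.End k V) (p : ℕ) (h : TWHyp ρ p) (h2 : (2 : k) ≠ 0)
    (A : Module.End k V) (hAtr : LinearMap.trace k V A = 0) (d : k) (hd0 : d ≠ 0)
    (hsq : A * A = d • (1 : Module.End k V))
    (hst : ∀ g : Γ, ∃ c : k, ρ g * A * ρ g⁻¹ = c • A) : False := by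
  obtain ⟨lam, hlam⟩ := IsAlgClosed.exists_eq_mul_self (algebraMap k (AlgebraicClosure k) d)
  have hlam0 : lam ≠ 0 := by
    rintro rfl
    rw [mul_zero] at hlam
    exact hd0 ((map_eq_zero _).mp hlam)
  have h2K : (2 : AlgebraicClosure k) ≠ 0 := by
    intro h0
    apply h2
    apply (algebraMap k (AlgebraicClosure k)).injective
    rw [map_ofNat, h0, map_zero]
  have htrAK : LinearMap.trace (AlgebraicClosure k) _ (A.baseChange (AlgebraicClosure k)) = 0 := by
    rw [LinearMap.trace_baseChange, hAtr, map_zero]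
  have hfin : finrank (AlgebraicClosure k) (TensorProduct k (AlgebraicClosure k) V) = 2 := by
    rw [Module.finrank_baseChange, h.finrank_eq]
  have htr1 : LinearMap.trace (AlgebraicClosure k) (TensorProduct k (AlgebraicClosure k) V) 1
      = 2 := by
    rw [LinearMap.trace_one, hfin]
    norm_num
  have hne : ∀ μ : AlgebraicClosure k, μ ≠ 0 →
      A.baseChange (AlgebraicClosure k) ≠
        μ • (1 : Module.End (AlgebraicClosure k) (TensorProduct k (AlgebraicClosure k) V)) := by
    intro μ hμ he
    have h3 := congrArg (LinearMap.trace (AlgebraicClosure k) _) he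
    rw [htrAK, map_smul, htr1, smul_eq_mul] at h3
    exact mul_ne_zero hμ h2K h3.symm
  have hAKsq : A.baseChange (AlgebraicClosure k) * A.baseChange (AlgebraicClosure k) =
      (lam * lam) •
        (1 : Module.End (AlgebraicClosure k) (TensorProduct k (AlgebraicClosure k) V)) := by
    rw [← LinearMap.baseChange_mul, hsq, LinearMap.baseChange_smul, LinearMap.baseChange_one,
      ← hlam, algebraMap_smul]
  have hprod : ∀ x, (A.baseChange (AlgebraicClosure k) - lam • 1)
      ((A.baseChange (AlgebraicClosure k) + lam • 1) x) = 0 := by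
    intro x
    have h3 := congrArg (fun f : Module.End (AlgebraicClosure k)
      (TensorProduct k (AlgebraicClosure k) V) => f x) hAKsq
    simp only [Module.End.mul_apply, LinearMap.smul_apply, Module.End.one_apply] at h3
    simp only [LinearMap.sub_apply, LinearMap.add_apply, LinearMap.smul_apply,
      Module.End.one_apply, map_add, map_smul, h3]
    module
  -- the stabiliser
  have hstab : ∀ g ∈ centr ρ A, ∀ x ∈ LinearMap.ker (A.baseChange (AlgebraicClosure k) - lam • 1),
      (ρ g).baseChange (AlgebraicClosure k) x ∈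
        LinearMap.ker (A.baseChange (AlgebraicClosure k) - lam • 1) := by
    intro g hg x hx
    rw [LinearMap.mem_ker] at hx ⊢
    have hg' : ρ g * A = A * ρ g := hg
    have h1 : (ρ g).baseChange (AlgebraicClosure k) * A.baseChange (AlgebraicClosure k) =
        A.baseChange (AlgebraicClosure k) * (ρ g).baseChange (AlgebraicClosure k) := by
      rw [← LinearMap.baseChange_mul, hg', LinearMap.baseChange_mul]
    have h3 := congrArg (fun f : Module.End (AlgebraicClosure k)
      (TensorProduct k (AlgebraicClosure k) V) => f x) h1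
    simp only [Module.End.mul_apply] at h3
    simp only [LinearMap.sub_apply, LinearMap.smul_apply, Module.End.one_apply] at hx ⊢
    rw [← h3, ← map_smul, ← map_sub, hx, map_zero]
  have hWbot : LinearMap.ker (A.baseChange (AlgebraicClosure k) - lam • 1) ≠ ⊥ := by
    intro hb
    apply hne (-lam) (neg_ne_zero.mpr hlam0)
    refine LinearMap.ext fun x => ?_
    have hx : (A.baseChange (AlgebraicClosure k) + lam • 1) x ∈
        LinearMap.ker (A.baseChange (AlgebraicClosure k) - lam • 1) := by
      rw [LinearMap.mem_ker]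
      exact hprod x
    rw [hb, Submodule.mem_bot] at hx
    simp only [LinearMap.add_apply, LinearMap.smul_apply, Module.End.one_apply] at hx
    simp only [LinearMap.smul_apply, Module.End.one_apply, neg_smul]
    exact eq_neg_of_add_eq_zero_left hx
  have hWtop : LinearMap.ker (A.baseChange (AlgebraicClosure k) - lam • 1) ≠ ⊤ := by
    intro ht
    apply hne lam hlam0
    exact sub_eq_zero.mp (LinearMap.ker_eq_top.mp ht)
  by_cases hall : ∀ g : Γ, g ∈ centr ρ A
  · rcases h.absIrr _ (fun g => hstab g (hall g)) with hb | ht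
    · exact hWbot hb
    · exact hWtop ht
  · push Not at hall
    obtain ⟨g₀, hg₀⟩ := hall
    have hidx : (centr ρ A).index = 2 := by
      refine index_eq_two_of hg₀ ?_
      intro a b ha hb
      obtain ⟨ca, hca⟩ := hst a
      obtain ⟨cb, hcb⟩ := hst b
      have ha' : ρ a * A = -(A * ρ a) := by
        rcases conj_cases ρ h.finrank_eq h2 A d hd0 hsq a ca hca with h' | h'
        · exact absurd h' ha
        · exact h'
      have hb' : ρ b * A = -(A * ρ b) := by
        rcases conj_cases ρ h.finrank_eq h2 A d hd0 hsq b cb hcb with h' | h'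
        · exact absurd h' hb
        · exact h'
      show ρ (a * b) * A = A * ρ (a * b)
      rw [map_mul, mul_assoc, hb', mul_neg, ← mul_assoc, ha', neg_mul, neg_neg, mul_assoc]
    rcases h.tw (AlgebraicClosure k) (centr ρ A) hidx _ hstab with hb | ht
    · exact hWbot hb
    · exact hWtop ht

/-- **The line case.** -/
theorem line_false (ρ : Γ →* Module.End k V) (p : ℕ) [hp : Fact p.Prime] (hp2 : p ≠ 2)
    (h : TWHyp ρ p) (A : Module.End k V) (hA0 : A ≠ 0) (hAtr : LinearMap.trace k V A = 0)
    (hst : ∀ g : Γ, ∃ c : k, ρ g * A * ρ g⁻¹ = c • A) : False := by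
  obtain ⟨d, hd⟩ := sq_eq_smul_one h.finrank_eq A hAtr
  by_cases hd0 : d = 0
  · rw [hd0, zero_smul] at hd
    exact line_false_nil ρ p h A hA0 hd hst
  · exact line_false_ss ρ p h (two_ne_zero_of_char hp.out hp2 h.char_p) A hAtr d hd0 hd hst

end Line

section Main

variable {k : Type} [Field k] {V : Type} [AddCommGroup V] [Module k V] [Module.Finite k V]
variable {Γ : Type} [Group Γ]

/-- A stable subspace of trace-zero endomorphisms is not a line. -/
theorem finrank_ne_one (ρ : Γ →* Module.End k V) (p : ℕ) [Fact p.Prime] (hp2 : p ≠ 2)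
    (h : TWHyp ρ p) (W : Submodule k (Module.End k V))
    (hWtr : ∀ A ∈ W, LinearMap.trace k V A = 0)
    (hWst : ∀ g : Γ, ∀ A ∈ W, ρ g * A * ρ g⁻¹ ∈ W) : finrank k W ≠ 1 := by
  intro h1
  obtain ⟨⟨A, hA⟩, hA0, hspan⟩ := finrank_eq_one_iff'.mp h1
  refine line_false ρ p hp2 h A (fun h0 => hA0 (Subtype.ext h0)) (hWtr A hA) (fun g => ?_)
  obtain ⟨c, hc⟩ := hspan ⟨_, hWst g A hA⟩
  exact ⟨c, (congrArg Subtype.val hc).symm⟩

/-- **IRR**: `ad⁰ρ` is irreducible. -/
theorem ad0Irreducible : Ad0IrreducibleStatement := by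
  intro k _ V _ _ _ Γ _ ρ p hp hp2 h W hWtr hWst hW0 A hA
  have h2 : (2 : k) ≠ 0 := two_ne_zero_of_char hp.out hp2 h.char_p
  have htr1 : LinearMap.trace k V 1 = 2 := by
    rw [LinearMap.trace_one, h.finrank_eq]
    norm_num
  have hone : (1 : Module.End k V) ≠ 0 := by
    intro h0
    rw [h0, map_zero] at htr1
    exact h2 htr1.symm
  have hdisj : W ⊓ Submodule.span k {(1 : Module.End k V)} = ⊥ := by
    rw [Submodule.eq_bot_iff]
    rintro x ⟨hxW, hx1⟩
    obtain ⟨t, rfl⟩ := Submodule.mem_span_singleton.mp hx1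
    have h3 := hWtr _ hxW
    rw [map_smul, htr1, smul_eq_mul] at h3
    rcases mul_eq_zero.mp h3 with ht | ht
    · rw [ht, zero_smul]
    · exact absurd ht h2
  have hfU : finrank k ↥(W ⊔ Submodule.span k {(1 : Module.End k V)}) = finrank k W + 1 := by
    have h3 := Submodule.finrank_sup_add_finrank_inf_eq W
      (Submodule.span k {(1 : Module.End k V)})
    rw [hdisj, finrank_bot, add_zero, finrank_span_singleton hone] at h3
    exact h3
  have horth := LinearMap.BilinForm.finrank_add_finrank_orthogonal' (B := trForm k V)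
    (W ⊔ Submodule.span k {(1 : Module.End k V)})
  rw [trForm_ker, inf_bot_eq, finrank_bot, add_zero, finrank_end h.finrank_eq, hfU] at horth
  have hWpos : 0 < finrank k W := by
    rw [Module.finrank_pos_iff]
    exact Submodule.nontrivial_iff_ne_bot.mpr hW0
  have hW1 : finrank k W ≠ 1 := finrank_ne_one ρ p hp2 h W hWtr hWst
  have hUst : ∀ g : Γ, ∀ n ∈ W ⊔ Submodule.span k {(1 : Module.End k V)},
      ρ g * n * ρ g⁻¹ ∈ W ⊔ Submodule.span k {(1 : Module.End k V)} := by
    intro g n hn
    obtain ⟨w, hw, z, hz, rfl⟩ := Submodule.mem_sup.mp hn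
    obtain ⟨t, rfl⟩ := Submodule.mem_span_singleton.mp hz
    have h3 : ρ g * (w + t • 1) * ρ g⁻¹ = ρ g * w * ρ g⁻¹ + t • 1 := by
      rw [mul_add, add_mul, mul_smul_comm, mul_one, smul_mul_assoc, rho_mul_inv]
    rw [h3]
    exact Submodule.add_mem _ (Submodule.mem_sup_left (hWst g w hw))
      (Submodule.mem_sup_right (Submodule.smul_mem _ _ (Submodule.mem_span_singleton_self 1)))
  have hO1 : finrank k
      ↥((trForm k V).orthogonal (W ⊔ Submodule.span k {(1 : Module.End k V)})) ≠ 1 := by
    refine finrank_ne_one ρ p hp2 h _ ?_ ?_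
    · intro C hC
      have h3 := hC 1 (Submodule.mem_sup_right (Submodule.mem_span_singleton_self 1))
      rw [trForm_apply, one_mul] at h3
      exact h3
    · intro g C hC n hn
      rw [trForm_apply]
      have h3 := hC _ (hUst g⁻¹ n hn)
      rw [inv_inv, trForm_apply] at h3
      rw [← h3]
      calc LinearMap.trace k V (n * (ρ g * C * ρ g⁻¹))
          = LinearMap.trace k V ((n * ρ g * C) * ρ g⁻¹) := by simp only [mul_assoc]
        _ = LinearMap.trace k V (ρ g⁻¹ * (n * ρ g * C)) := LinearMap.trace_mul_comm k _ _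
        _ = LinearMap.trace k V (ρ g⁻¹ * n * ρ g * C) := by simp only [mul_assoc]
  have hf3 : finrank k W = 3 := by omega
  have hUtop : W ⊔ Submodule.span k {(1 : Module.End k V)} = ⊤ :=
    Submodule.eq_top_of_finrank_eq (by rw [hfU, hf3, finrank_end h.finrank_eq])
  have hAU : A ∈ W ⊔ Submodule.span k {(1 : Module.End k V)} := by
    rw [hUtop]
    trivial
  obtain ⟨w, hw, z, hz, rfl⟩ := Submodule.mem_sup.mp hAU
  obtain ⟨t, rfl⟩ := Submodule.mem_span_singleton.mp hz
  have ht : t = 0 := by
    rw [map_add, hWtr w hw, zero_add, map_smul, htr1, smul_eq_mul] at hA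
    rcases mul_eq_zero.mp hA with ht | ht
    · exact ht
    · exact absurd ht h2
  rw [ht, zero_smul, add_zero]
  exact hw

end Main

end Fermat.Agent.S56.P3.H666
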